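/-
S33, block (G1), leaf P8 of helper11's DAG (`moonshots` row 57), typed by helper24: **reducedness of
the Hecke algebra and of `T` from Petersson self-adjointness**, pure algebra.

The analytic input enters only as the named hypothesis `PeterssonHyp N`: a biadditive, definite form
`B` on `S₂(Γ₀(N))` for which every `T_ℓ` (`ℓ ∤ N`) is self-adjoint.

* Part A (abstract): a subalgebra of `End V` all of whose generators are `B`-self-adjoint and commute
  pairwise consists of `B`-self-adjoint operators; a nilpotent `B`-self-adjoint operator is `0`.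
* Part B: `isReduced_heckeAlgebra`: if every prime of `N` lies in `S` (no `U_q` among the
  generators), `heckeAlgebra N 2 S` is reduced; `peterssonHyp_of`: the hypothesis from the fields of
  a `PetData` (right-additive, conjugate-symmetric, definite, `T_ℓ` self-adjoint).
* Part C (generic): `formallyUnramified_of_isReduced`: a finite reduced algebra over a field of
  characteristic `0` is formally unramified.
* Part D: `isReduced_T`: for a `HeckeGaloisRepDatum N S 𝒪 θ T` with `CharZero 𝒪`, the ring `T` is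
  reduced as soon as `heckeAlgebra N 2 S` is; `sInf_minimalPrimes_eq_bot`, `eq_zero_of_forall_mem`.
-/
import Mathlib
import Fermat.Prelude.Def_CuspForm_HeckeGaloisRepDatum
import Fermat.Agent.S22

set_option autoImplicit false
set_option linter.unusedSectionVars false
set_option linter.style.longLine false

namespace Fermat.Agent.S33.G1.Reduced

open CuspForm

/-! ### Part A: self-adjoint operators for a biadditive definite form -/

section Abstract

variable {V : Type*} [AddCommGroup V] [Module ℂ V] (B : V → V → ℂ)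

/-- `t` is self-adjoint for `B` -/
def IsSA (t : Module.End ℂ V) : Prop := ∀ x y, B (t x) y = B x (t y)

variable {B}

theorem IsSA.add {s t : Module.End ℂ V} (hl : ∀ x y z, B (x + y) z = B x z + B y z)
    (hr : ∀ x y z, B x (y + z) = B x y + B x z) (hs : IsSA B s) (ht : IsSA B t) :
    IsSA B (s + t) := by
  intro x y
  rw [LinearMap.add_apply, LinearMap.add_apply, hl, hr, hs x y, ht x y]

theorem IsSA.mul {s t : Module.End ℂ V} (hs : IsSA B s) (ht : IsSA B t) (hc : Commute s t) :
    IsSA B (s * t) := by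
  intro x y
  rw [Module.End.mul_apply, hs, ht, ← Module.End.mul_apply, hc.eq]

theorem IsSA.one : IsSA B (1 : Module.End ℂ V) := fun _ _ => rfl

theorem IsSA.zero (hl : ∀ x y z, B (x + y) z = B x z + B y z)
    (hr : ∀ x y z, B x (y + z) = B x y + B x z) : IsSA B (0 : Module.End ℂ V) := by
  intro x y
  have h1 : B 0 y = 0 := by
    have := hl 0 0 y
    rw [add_zero] at this
    exact left_eq_add.mp this
  have h2 : B x 0 = 0 := by
    have := hr x 0 0
    rw [add_zero] at this
    exact left_eq_add.mp this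
  rw [LinearMap.zero_apply, LinearMap.zero_apply, h1, h2]

theorem IsSA.neg (hl : ∀ x y z, B (x + y) z = B x z + B y z)
    (hr : ∀ x y z, B x (y + z) = B x y + B x z) {t : Module.End ℂ V} (ht : IsSA B t) :
    IsSA B (-t) := by
  intro x y
  have h0 := IsSA.zero hl hr (V := V) x y
  simp only [LinearMap.zero_apply] at h0
  have h1 : B (-(t x)) y = - B (t x) y := by
    have := hl (t x) (-(t x)) y
    rw [add_neg_cancel] at this
    have h00 : B 0 y = 0 := by
      have := hl 0 0 y
      rw [add_zero] at this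
      exact left_eq_add.mp this
    rw [h00] at this
    exact eq_neg_of_add_eq_zero_right this.symm
  have h2 : B x (-(t y)) = - B x (t y) := by
    have := hr x (t y) (-(t y))
    rw [add_neg_cancel] at this
    have h00 : B x 0 = 0 := by
      have := hr x 0 0
      rw [add_zero] at this
      exact left_eq_add.mp this
    rw [h00] at this
    exact eq_neg_of_add_eq_zero_right this.symm
  rw [LinearMap.neg_apply, LinearMap.neg_apply, h1, h2, ht x y]

theorem IsSA.intCast (hl : ∀ x y z, B (x + y) z = B x z + B y z)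
    (hr : ∀ x y z, B x (y + z) = B x y + B x z) (n : ℤ) :
    IsSA B (algebraMap ℤ (Module.End ℂ V) n) := by
  have hnat : ∀ m : ℕ, IsSA B (algebraMap ℤ (Module.End ℂ V) (m : ℤ)) := by
    intro m
    induction m with
    | zero =>
      rw [Nat.cast_zero, map_zero]
      exact IsSA.zero hl hr
    | succ m ih =>
      rw [Nat.cast_succ, map_add, map_one]
      exact IsSA.add hl hr ih IsSA.one
  obtain ⟨m, rfl | rfl⟩ := n.eq_nat_or_neg
  · exact hnat m
  · rw [map_neg]
    exact IsSA.neg hl hr (hnat m)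

theorem IsSA.pow {t : Module.End ℂ V} (ht : IsSA B t) (n : ℕ) : IsSA B (t ^ n) := by
  induction n with
  | zero => rw [pow_zero]; exact IsSA.one
  | succ n ih =>
    rw [pow_succ]
    exact IsSA.mul ih ht (Commute.pow_left (Commute.refl t) n)

/-- a self-adjoint operator of square zero vanishes -/
theorem IsSA.eq_zero_of_sq (hr : ∀ x y z, B x (y + z) = B x y + B x z)
    (hdef : ∀ x, B x x = 0 → x = 0) {t : Module.End ℂ V} (ht : IsSA B t) (h2 : t ^ 2 = 0) :
    t = 0 := by
  ext x
  rw [LinearMap.zero_apply]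
  apply hdef
  have h00 : B x 0 = 0 := by
    have := hr x 0 0
    rw [add_zero] at this
    exact left_eq_add.mp this
  rw [ht, ← Module.End.mul_apply, ← sq, h2, LinearMap.zero_apply, h00]

/-- a nilpotent self-adjoint operator vanishes -/
theorem IsSA.eq_zero_of_pow (hr : ∀ x y z, B x (y + z) = B x y + B x z)
    (hdef : ∀ x, B x x = 0 → x = 0) {t : Module.End ℂ V} (ht : IsSA B t) :
    ∀ n : ℕ, t ^ n = 0 → t ^ 1 = 0 := by
  intro n
  induction n using Nat.strong_induction_on with
  | _ n ih =>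
    intro hn
    rcases Nat.lt_or_ge n 2 with h | h
    · interval_cases n
      · -- `t ^ 0 = 0`: the ring is trivial
        rw [pow_zero] at hn
        rw [← mul_one (t ^ 1), hn, mul_zero]
      · exact hn
    · -- `m = ⌈n/2⌉ < n`, `(t^m)^2 = 0`
      set m := (n + 1) / 2 with hm
      have hm_lt : m < n := by omega
      have h2m : n ≤ 2 * m := by omega
      have hsq : (t ^ m) ^ 2 = 0 := by
        rw [← pow_mul, mul_comm]
        obtain ⟨c, hc⟩ := Nat.exists_eq_add_of_le h2m
        rw [hc, pow_add, hn, zero_mul]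
      exact ih m hm_lt (IsSA.eq_zero_of_sq hr hdef (ht.pow m) hsq)

end Abstract

/-! ### Part B: the Hecke algebra is reduced -/

section Hecke

variable (N : ℕ) [NeZero N]

/-- **the Petersson input**: a biadditive definite form on `S₂(Γ₀(N))` for which the `T_ℓ`,
`ℓ ∤ N`, are self-adjoint. -/
def PeterssonHyp : Prop :=
  ∃ B : CuspForm (CongruenceSubgroup.Gamma0 N) 2 → CuspForm (CongruenceSubgroup.Gamma0 N) 2 → ℂ,
    (∀ x y z, B (x + y) z = B x z + B y z) ∧ (∀ x y z, B x (y + z) = B x y + B x z) ∧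
    (∀ x, B x x = 0 → x = 0) ∧
    ∀ (ℓ : ℕ) (hℓ : ℓ.Prime) (hℓN : ¬ ℓ ∣ N) (x y : CuspForm (CongruenceSubgroup.Gamma0 N) 2),
      B (heckeTLin 2 hℓ hℓN x) y = B x (heckeTLin 2 hℓ hℓN y)

variable {N} {S : Set ℕ}

/-- `PeterssonHyp` from the fields of helper11's `Pet.PetData` (right-additive, conjugate-symmetric,
definite, `T_ℓ` self-adjoint): left additivity follows from conjugate symmetry. -/
theorem peterssonHyp_of
    (pet : CuspForm (CongruenceSubgroup.Gamma0 N) 2 → CuspForm (CongruenceSubgroup.Gamma0 N) 2 → ℂ)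
    (add_right : ∀ f g h, pet f (g + h) = pet f g + pet f h)
    (conj_symm : ∀ f g, (starRingEnd ℂ) (pet f g) = pet g f)
    (definite : ∀ f, pet f f = 0 → f = 0)
    (heckeT_adjoint : ∀ (ℓ : ℕ) (hℓ : ℓ.Prime) (hℓN : ¬ ℓ ∣ N) f g,
      pet (heckeTLin 2 hℓ hℓN f) g = pet f (heckeTLin 2 hℓ hℓN g)) : PeterssonHyp N := by
  refine ⟨pet, fun x y z => ?_, add_right, definite, heckeT_adjoint⟩
  rw [← conj_symm z (x + y), add_right, map_add, conj_symm, conj_symm]

/-- every element of the Hecke algebra is self-adjoint -/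
theorem isSA_of_mem_heckeAlgebra
    {B : CuspForm (CongruenceSubgroup.Gamma0 N) 2 → CuspForm (CongruenceSubgroup.Gamma0 N) 2 → ℂ}
    (hl : ∀ x y z, B (x + y) z = B x z + B y z) (hr : ∀ x y z, B x (y + z) = B x y + B x z)
    (hsa : ∀ (ℓ : ℕ) (hℓ : ℓ.Prime) (hℓN : ¬ ℓ ∣ N) x y,
      B (heckeTLin 2 hℓ hℓN x) y = B x (heckeTLin 2 hℓ hℓN y))
    (hNS : ∀ q : ℕ, q.Prime → q ∣ N → q ∈ S)
    {t : Module.End ℂ (CuspForm (CongruenceSubgroup.Gamma0 N) 2)}
    (ht : t ∈ heckeAlgebra N 2 S) : IsSA B t := by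
  have key : ∀ t (ht : t ∈ heckeAlgebra N 2 S), IsSA B t := by
    intro t ht
    refine Algebra.adjoin_induction (p := fun t _ => IsSA B t) ?_ ?_ ?_ ?_ ht
    · rintro t (⟨ℓ, hℓ, hℓN, -, rfl⟩ | ⟨q, hqN, hq, hqS, rfl⟩)
      · exact hsa ℓ hℓ hℓN
      · exact absurd (hNS q hq hqN) hqS
    · intro n
      exact IsSA.intCast hl hr n
    · intro s t _ _ hs ht
      exact IsSA.add hl hr hs ht
    · intro s t hs' ht' hs ht
      refine IsSA.mul hs ht ?_
      have h := mul_comm (⟨s, hs'⟩ : heckeAlgebra N 2 S) ⟨t, ht'⟩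
      exact congrArg Subtype.val h
  exact key t ht

/-- **the anemic Hecke algebra is reduced** (all primes of `N` in `S`) -/
theorem isReduced_heckeAlgebra (hP : PeterssonHyp N) (hNS : ∀ q : ℕ, q.Prime → q ∣ N → q ∈ S) :
    IsReduced (heckeAlgebra N 2 S) := by
  obtain ⟨B, hl, hr, hdef, hsa⟩ := hP
  constructor
  rintro ⟨t, ht⟩ ⟨n, hn⟩
  have hn' : t ^ n = 0 := by
    have := congrArg Subtype.val hn
    simpa using this
  have h1 := IsSA.eq_zero_of_pow hr hdef (isSA_of_mem_heckeAlgebra hl hr hsa hNS ht) n hn'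
  rw [pow_one] at h1
  exact Subtype.ext h1

end Hecke

/-! ### Part C: finite reduced algebras over a field of characteristic zero are unramified -/

section Unramified

open TensorProduct

attribute [local instance] IsArtinianRing.fieldOfSubtypeIsMaximal in
/-- a finite reduced algebra over a field of characteristic `0` is formally unramified -/
theorem formallyUnramified_of_isReduced (K A : Type*) [Field K] [CharZero K] [CommRing A]
    [Algebra K A] [Module.Finite K A] [IsReduced A] : Algebra.FormallyUnramified K A := by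
  have : IsArtinianRing A := isArtinian_of_tower K inferInstance
  have e := (IsArtinianRing.equivPi A).restrictScalars K
  have h : Algebra.FormallyUnramified K (∀ I : MaximalSpectrum A, A ⧸ I.asIdeal) := by
    rw [Algebra.FormallyUnramified.pi_iff]
    intro I
    have : Module.Finite K (A ⧸ I.asIdeal) := Module.Finite.of_surjective
      ((Ideal.Quotient.mkₐ K I.asIdeal).toLinearMap) (Ideal.Quotient.mkₐ_surjective K I.asIdeal)
    have : Algebra.IsSeparable K (A ⧸ I.asIdeal) := inferInstance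
    exact Algebra.FormallyUnramified.of_isSeparable K (A ⧸ I.asIdeal)
  exact Algebra.FormallyUnramified.of_equiv e.symm

attribute [local instance] Algebra.TensorProduct.rightAlgebra in
/-- `ℚ ⊗ 𝕋` is reduced if `𝕋` is (it is a localisation of `𝕋`) -/
theorem isReduced_rat_tensor {𝕋 : Type} [CommRing 𝕋] [IsReduced 𝕋] : IsReduced (ℚ ⊗[ℤ] 𝕋) :=
  isReduced_localizationPreserves (Algebra.algebraMapSubmonoid 𝕋 (nonZeroDivisors ℤ))
    (ℚ ⊗[ℤ] 𝕋) inferInstance

end Unramified

/-! ### Part D: `T` is reduced -/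

section Main

open TensorProduct

variable {𝕋 : Type} [CommRing 𝕋] [IsReduced 𝕋] [Module.Finite ℤ 𝕋]
variable (𝒪 : Type) [CommRing 𝒪] [IsDomain 𝒪] [CharZero 𝒪]
variable (E : Type) [Field E] [Algebra 𝒪 E] [IsFractionRing 𝒪 E]
variable {T : Type} [CommRing T] [Algebra 𝒪 T] [Module.Finite 𝒪 T] [Module.Free 𝒪 T]

/-- `1 ⊗ π(·)` as a `ℤ`-algebra map -/
noncomputable def rightMap (π : 𝕋 →+* T) : 𝕋 →ₐ[ℤ] (E ⊗[𝒪] T) where
  toRingHom := (Algebra.TensorProduct.includeRight : T →ₐ[𝒪] E ⊗[𝒪] T).toRingHom.comp π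
  commutes' n := by simp

theorem rightMap_apply (π : 𝕋 →+* T) (t : 𝕋) : rightMap 𝒪 E π t = (1 : E) ⊗ₜ[𝒪] π t := rfl

/-- the comparison map `E ⊗_ℤ 𝕋 → E ⊗_𝒪 T` -/
noncomputable def compMap (π : 𝕋 →+* T) : (E ⊗[ℤ] 𝕋) →ₐ[E] (E ⊗[𝒪] T) :=
  Algebra.TensorProduct.lift (Algebra.ofId E (E ⊗[𝒪] T)) (rightMap 𝒪 E π)
    (fun _ _ => Commute.all _ _)

theorem compMap_tmul (π : 𝕋 →+* T) (e : E) (t : 𝕋) :
    compMap 𝒪 E π (e ⊗ₜ t) = e ⊗ₜ[𝒪] π t := by
  unfold compMap
  rw [Algebra.TensorProduct.lift_tmul, rightMap_apply]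
  change algebraMap E (E ⊗[𝒪] T) e * ((1 : E) ⊗ₜ[𝒪] π t) = _
  rw [Algebra.TensorProduct.algebraMap_apply, Algebra.TensorProduct.tmul_mul_tmul]
  simp

theorem compMap_surjective (π : 𝕋 →+* T) (hπ : Algebra.adjoin 𝒪 (Set.range π) = ⊤) :
    Function.Surjective (compMap 𝒪 E π) := by
  have h1 : ∀ x : T, (1 : E) ⊗ₜ[𝒪] x ∈ (compMap 𝒪 E π).range := by
    intro x
    have hx : x ∈ Algebra.adjoin 𝒪 (Set.range π) := by rw [hπ]; trivial
    refine Algebra.adjoin_induction (p := fun x _ => (1 : E) ⊗ₜ[𝒪] x ∈ (compMap 𝒪 E π).range)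
      ?_ ?_ ?_ ?_ hx
    · rintro _ ⟨t, rfl⟩
      exact ⟨1 ⊗ₜ t, compMap_tmul 𝒪 E π 1 t⟩
    · intro a
      have : (1 : E) ⊗ₜ[𝒪] algebraMap 𝒪 T a = algebraMap E (E ⊗[𝒪] T) (algebraMap 𝒪 E a) := by
        rw [Algebra.TensorProduct.algebraMap_apply, Algebra.algebraMap_self, RingHom.id_apply,
          Algebra.algebraMap_eq_smul_one a, Algebra.algebraMap_eq_smul_one (A := E) a,
          TensorProduct.smul_tmul]
      rw [this]
      exact Subalgebra.algebraMap_mem _ _
    · intro x y _ _ hx hy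
      rw [TensorProduct.tmul_add]
      exact Subalgebra.add_mem _ hx hy
    · intro x y _ _ hx hy
      have : (1 : E) ⊗ₜ[𝒪] (x * y) = ((1 : E) ⊗ₜ[𝒪] x) * ((1 : E) ⊗ₜ[𝒪] y) := by
        rw [Algebra.TensorProduct.tmul_mul_tmul, one_mul]
      rw [this]
      exact Subalgebra.mul_mem _ hx hy
  intro z
  change z ∈ (compMap 𝒪 E π).range
  induction z using TensorProduct.induction_on with
  | zero => exact Subalgebra.zero_mem _
  | tmul e x =>
    have : e ⊗ₜ[𝒪] x = e • ((1 : E) ⊗ₜ[𝒪] x) := by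
      rw [TensorProduct.smul_tmul', smul_eq_mul, mul_one]
    rw [this]
    exact Subalgebra.smul_mem _ (h1 x) e
  | add x y hx hy => exact Subalgebra.add_mem _ hx hy

include E in
/-- `T` finite free over a domain `𝒪` of characteristic `0` with fraction field `E`, generated over
`𝒪` by the image of a reduced ring `𝕋` finite over `ℤ`, is reduced. -/
theorem isReduced_of_adjoin_range_aux (π : 𝕋 →+* T) (hπ : Algebra.adjoin 𝒪 (Set.range π) = ⊤) :
    IsReduced T := by
  have : CharZero E := by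
    have hinj : Function.Injective (algebraMap 𝒪 E) := IsFractionRing.injective 𝒪 E
    exact charZero_of_injective_algebraMap hinj
  have : IsReduced (ℚ ⊗[ℤ] 𝕋) := isReduced_rat_tensor
  have h1 : Algebra.FormallyUnramified ℚ (ℚ ⊗[ℤ] 𝕋) := formallyUnramified_of_isReduced ℚ _
  have h2 : Algebra.FormallyUnramified E (E ⊗[ℚ] (ℚ ⊗[ℤ] 𝕋)) := inferInstance
  have : IsScalarTower ℤ ℚ E := IsScalarTower.of_algebraMap_eq (fun x => by simp)
  have h3 : Algebra.FormallyUnramified E (E ⊗[ℤ] 𝕋) :=
    Algebra.FormallyUnramified.of_equiv (Algebra.TensorProduct.cancelBaseChange ℤ ℚ E E 𝕋)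
  have h4 : Algebra.FormallyUnramified E (E ⊗[𝒪] T) :=
    Algebra.FormallyUnramified.of_surjective (compMap 𝒪 E π) (compMap_surjective 𝒪 E π hπ)
  have h5 : IsReduced (E ⊗[𝒪] T) := Algebra.FormallyUnramified.isReduced_of_field E _
  have hinj : Function.Injective (Algebra.TensorProduct.includeRight : T →ₐ[𝒪] E ⊗[𝒪] T) :=
    Algebra.TensorProduct.includeRight_injective (IsFractionRing.injective 𝒪 E)
  exact isReduced_of_injective (Algebra.TensorProduct.includeRight : T →ₐ[𝒪] E ⊗[𝒪] T) hinj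

/-- **generic form of (G1)**: `T` finite free over a domain `𝒪` of characteristic `0`, generated over
`𝒪` by the image of a reduced ring `𝕋` which is finite over `ℤ`, is reduced. -/
theorem isReduced_of_adjoin_range (π : 𝕋 →+* T) (hπ : Algebra.adjoin 𝒪 (Set.range π) = ⊤) :
    IsReduced T :=
  isReduced_of_adjoin_range_aux 𝒪 (FractionRing 𝒪) π hπ

end Main

/-! ### The Hecke--Galois datum -/

section Datum

variable {N : ℕ} [NeZero N] {S : Set ℕ}
  {𝒪 : Type} [CommRing 𝒪] [IsDomain 𝒪] [IsDiscreteValuationRing 𝒪]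
  [IsAdicComplete (IsLocalRing.maximalIdeal 𝒪) 𝒪]
  {θ : CuspForm.heckeAlgebra N 2 S →+* IsLocalRing.ResidueField 𝒪}
  {T : Type} [CommRing T] [IsLocalRing T] [IsNoetherianRing T]
  [IsAdicComplete (IsLocalRing.maximalIdeal T) T] [Algebra 𝒪 T] [IsLocalHom (algebraMap 𝒪 T)]
  [Module.Finite 𝒪 T] [Module.Free 𝒪 T]

/-- **(G1)**: `T` is reduced as soon as the Hecke algebra is. -/
theorem isReduced_T_of_isReduced [CharZero 𝒪] (H : CuspForm.HeckeGaloisRepDatum N S 𝒪 θ T)
    (h : IsReduced (heckeAlgebra N 2 S)) : IsReduced T := by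
  have : Module.Finite ℤ (heckeAlgebra N 2 S) := Fermat.Agent.S22.result N 2 S
  exact isReduced_of_adjoin_range 𝒪 H.π H.adjoin_range_π

/-- **(G1)**: `T` is reduced, from the Petersson input (all primes of `N` in `S`). -/
theorem isReduced_T [CharZero 𝒪] (H : CuspForm.HeckeGaloisRepDatum N S 𝒪 θ T)
    (hP : PeterssonHyp N) (hNS : ∀ q : ℕ, q.Prime → q ∣ N → q ∈ S) : IsReduced T :=
  isReduced_T_of_isReduced H (isReduced_heckeAlgebra hP hNS)

end Datum

/-! ### Consequences used by the glue step (0c) -/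

section Glue

variable {T : Type*} [CommRing T]

theorem sInf_minimalPrimes_eq_bot [IsReduced T] : sInf (minimalPrimes T) = (⊥ : Ideal T) := by
  have h := Ideal.sInf_minimalPrimes (I := (⊥ : Ideal T))
  rw [show (⊥ : Ideal T).radical = nilradical T from rfl, nilradical_eq_zero] at h
  exact h

/-- an element lying in every minimal prime of a reduced ring is `0`: an identity holds in `T` as
soon as it holds in every `T ⧸ 𝔭`, `𝔭` a minimal prime. -/
theorem eq_zero_of_forall_mem [IsReduced T] {x : T} (h : ∀ 𝔭 ∈ minimalPrimes T, x ∈ 𝔭) : x = 0 := by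
  have : x ∈ sInf (minimalPrimes T) := by
    rw [Ideal.mem_sInf]
    intro 𝔭 h𝔭
    exact h 𝔭 h𝔭
  rwa [sInf_minimalPrimes_eq_bot, Ideal.mem_bot] at this

theorem eq_of_forall_mk_eq [IsReduced T] {x y : T}
    (h : ∀ 𝔭 ∈ minimalPrimes T, Ideal.Quotient.mk 𝔭 x = Ideal.Quotient.mk 𝔭 y) : x = y := by
  rw [← sub_eq_zero]
  refine eq_zero_of_forall_mem fun 𝔭 h𝔭 => ?_
  rw [← Ideal.Quotient.eq]
  exact h 𝔭 h𝔭

/-- `𝒪 → T ⧸ 𝔭` is injective for a minimal prime `𝔭` of a torsion-free `𝒪`-algebra `T`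
(so `T ⧸ 𝔭` is again of characteristic `0`, finite over `𝒪`, a domain). -/
theorem algebraMap_quotient_injective {𝒪 : Type*} [CommRing 𝒪] [IsDomain 𝒪] [Algebra 𝒪 T]
    [Module.IsTorsionFree 𝒪 T] {𝔭 : Ideal T} (h𝔭 : 𝔭 ∈ minimalPrimes T) :
    Function.Injective (algebraMap 𝒪 (T ⧸ 𝔭)) := by
  rw [injective_iff_map_eq_zero]
  intro a ha
  by_contra ha0
  have hmem : algebraMap 𝒪 T a ∈ 𝔭 := by
    rw [← Ideal.Quotient.eq_zero_iff_mem]
    exact ha
  have hnzd : algebraMap 𝒪 T a ∈ nonZeroDivisors T := by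
    rw [mem_nonZeroDivisors_iff_right]
    intro x hx
    rw [mul_comm, ← Algebra.smul_def] at hx
    exact (smul_eq_zero_iff_right ha0).1 hx
  exact Set.disjoint_left.mp (Ideal.disjoint_nonZeroDivisors_of_mem_minimalPrimes h𝔭) hmem hnzd

end Glue

end Fermat.Agent.S33.G1.Reduced
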